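import Mathlib
import Fermat.Agent.LT.T5.H29.TwSpec

/-!
# Row LT, tower T5, sub-leaf T5.07f `RatFiniteC` (helper965) — OFF-MAIN

`ratFiniteC965 K : T5.H29.RatFiniteC K`, VERBATIM against `LT/T5/H29/TwSpec.lean`
(helper29@dedb60878, sha256 08555f0f, byte-identical copy; on `T5/Spec.lean` 0d469f71,
`T1/Spec.lean` e8ae48d6, `H556/A0.lean` 66d3374a).

`GL₂(K)` is closed and discrete in `GL₂(𝔸_K)` (`T1.DiscreteC`), so it meets a compact set in a
compact discrete, hence finite, set; `ratG` is injective because `K → 𝔸_K` is.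
-/

set_option autoImplicit false

open IsDedekindDomain NumberField

noncomputable section

namespace Fermat.Agent.LT.T5.H965

open Fermat.Agent.LT.H556.A0 Fermat.Agent.LT.T5 Fermat.Agent.LT

variable (K : Type) [Field K] [NumberField K]

/-- The diagonal embedding `GL₂(K) → GL₂(𝔸_K)` is injective. -/
theorem ratG_injective965 : Function.Injective (ratG : GL (Fin 2) K →* G K) := by
  intro a b hab
  have hinj : Function.Injective (algebraMap K (Adl K)) :=
    NumberField.AdeleRing.algebraMap_injective (𝓞 K) K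
  apply Units.ext
  ext i j
  have h1 : ((ratG a : G K) : Matrix (Fin 2) (Fin 2) (Adl K)) i j =
      ((ratG b : G K) : Matrix (Fin 2) (Fin 2) (Adl K)) i j := by rw [hab]
  exact hinj h1

/-- The two diagonal embeddings (of `T1/Spec.lean` and of `T5/Spec.lean`) agree. -/
theorem ratG_eq_T1_965 : (ratG : GL (Fin 2) K →* G K) = T1.ratG K := rfl

/-- A closed discrete subset of a topological space meets a compact set in a finite set. -/
theorem finite_inter_of_discrete965 {X : Type*} [TopologicalSpace X] {S C : Set X}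
    (hS : DiscreteTopology S) (hcl : IsClosed S) (hC : IsCompact C) : (S ∩ C).Finite := by
  have hcomp : IsCompact (S ∩ C) := hC.inter_left hcl
  have hdisc : DiscreteTopology ↥(S ∩ C) := DiscreteTopology.of_subset hS Set.inter_subset_left
  exact hcomp.finite ⟨hdisc⟩

/-- **T5.07f**: `GL₂(K)` meets a compact subset of `GL₂(𝔸_K)` in a finite set. -/
theorem ratFiniteC965 : H29.RatFiniteC K := by
  intro hD C hC
  obtain ⟨hdisc, hclosed⟩ := hD
  have hfin : ((T1.Gam K : Set (G K)) ∩ C).Finite :=
    finite_inter_of_discrete965 hdisc hclosed hC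
  have hpre : ((ratG : GL (Fin 2) K →* G K) ⁻¹' ((T1.Gam K : Set (G K)) ∩ C)).Finite :=
    hfin.preimage (Set.injOn_of_injective (ratG_injective965 K))
  refine hpre.subset fun δ hδ => ?_
  exact ⟨⟨δ, rfl⟩, hδ⟩

end Fermat.Agent.LT.T5.H965

end
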